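/-
S18 / wave 4 (helper51): residue discs of the base function `x` as a partition of the places.

`cls A x P : Option (ResidueField A)` is the residue class of the value of `x` at `P` when that
value lies in `A`, and `none` otherwise (poles of `x`, or values outside `A`: the residue disc at
infinity).  The classes are exactly the residue discs `InDisc A x b` (`b ∈ A`) and
`InDisc A x⁻¹ 0` of the skeleton (`H74/CoreDefs.lean`).
-/
import Fermat.Agent.S18.H74.CoreDefs
import Fermat.Agent.S24.Residue
import Fermat.Agent.S24.H95.Degree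

set_option autoImplicit false

open AlgebraicCurve IntermediateField

noncomputable section

namespace Fermat.Agent.S18.H51

open Fermat.Agent.S18.H74

variable {K : Type*} [Field K] (A : ValuationSubring K) {F : Type*} [Field F] [Algebra K F]
  (x : F)

/-- The residue disc of the `x`-line in which the place `P` lies (`none`: the disc at infinity). -/
def cls (P : Place K F) : Option (IsLocalRing.ResidueField A) :=
  open Classical in
  if h : ∃ c : K, c ∈ A ∧ 0 < P.ord (x - algebraMap K F c) then
    some (IsLocalRing.residue A ⟨h.choose, h.choose_spec.1⟩)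
  else none

variable {A x}

theorem cls_eq_some {P : Place K F} {c : K} (hc : c ∈ A)
    (h : 0 < P.ord (x - algebraMap K F c)) :
    cls A x P = some (IsLocalRing.residue A ⟨c, hc⟩) := by
  have hex : ∃ c : K, c ∈ A ∧ 0 < P.ord (x - algebraMap K F c) := ⟨c, hc, h⟩
  have hcc : hex.choose = c := Fermat.Agent.S24.H95.center_unique P hex.choose_spec.2 h
  unfold cls
  rw [dif_pos hex]
  congr 2
  exact Subtype.ext hcc

theorem cls_eq_none {P : Place K F}
    (h : ¬ ∃ c : K, c ∈ A ∧ 0 < P.ord (x - algebraMap K F c)) : cls A x P = none := by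
  unfold cls
  rw [dif_neg h]

theorem residue_eq_iff {a b : K} (ha : a ∈ A) (hb : b ∈ A) :
    IsLocalRing.residue A ⟨a, ha⟩ = IsLocalRing.residue A ⟨b, hb⟩ ↔ a - b ∈ A.nonunits := by
  rw [← sub_eq_zero, ← map_sub, IsLocalRing.residue_eq_zero_iff]
  constructor
  · intro h
    exact ValuationSubring.mem_nonunits_iff_exists_mem_maximalIdeal.mpr ⟨A.sub_mem ha hb, h⟩
  · intro h
    obtain ⟨h1, h2⟩ := ValuationSubring.mem_nonunits_iff_exists_mem_maximalIdeal.mp h
    exact h2

theorem mem_of_sub_mem_nonunits {b c : K} (hb : b ∈ A) (h : c - b ∈ A.nonunits) : c ∈ A := by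
  have h1 : c - b ∈ A := A.nonunits_le h
  have h2 : c = (c - b) + b := by ring
  rw [h2]
  exact add_mem h1 hb

/-- The class of `b ∈ A` is the residue disc of `b`. -/
theorem cls_eq_some_iff {P : Place K F} {b : K} (hb : b ∈ A) :
    cls A x P = some (IsLocalRing.residue A ⟨b, hb⟩) ↔ InDisc A x b P := by
  constructor
  · intro h
    by_cases hex : ∃ c : K, c ∈ A ∧ 0 < P.ord (x - algebraMap K F c)
    · obtain ⟨c, hc, hP⟩ := hex
      rw [cls_eq_some hc hP, Option.some_inj, residue_eq_iff] at h
      exact ⟨c, h, hP⟩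
    · rw [cls_eq_none hex] at h
      exact absurd h (by simp)
  · rintro ⟨c, hcb, hP⟩
    have hc : c ∈ A := mem_of_sub_mem_nonunits hb hcb
    rw [cls_eq_some hc hP, Option.some_inj, residue_eq_iff]
    exact hcb

theorem ord_pos_iff_mem_nonunits (P : Place K F) {f : F} (hf : f ≠ 0) :
    0 < P.ord f ↔ f ∈ P.toValuationSubring.nonunits :=
  Fermat.Agent.S24.H94.ord_pos_iff_mem_nonunits P hf

theorem mem_nonunits_of_ord_pos (P : Place K F) {f : F} (h : 0 < P.ord f) :
    f ∈ P.toValuationSubring.nonunits :=
  (ord_pos_iff_mem_nonunits P (Fermat.Agent.S24.H94.ne_zero_of_ord_pos P h)).mp h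

theorem algebraMap_not_mem_nonunits (P : Place K F) {a : K} (ha : a ≠ 0) :
    algebraMap K F a ∉ P.toValuationSubring.nonunits := by
  intro h
  have h0 : algebraMap K F a ≠ 0 := by simpa using ha
  have h1 := (ord_pos_iff_mem_nonunits P h0).mpr h
  rw [Fermat.Agent.S24.H95.ord_algebraMap] at h1
  exact lt_irrefl _ h1

theorem one_not_mem_nonunits {L : Type*} [Field L] {V : ValuationSubring L} :
    (1 : L) ∉ V.nonunits := by
  rw [ValuationSubring.mem_nonunits_iff, map_one]
  exact lt_irrefl _

theorem zero_mem_nonunits {L : Type*} [Field L] {V : ValuationSubring L} :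
    (0 : L) ∈ V.nonunits := by
  rw [ValuationSubring.mem_nonunits_iff, map_zero]
  exact zero_lt_one

theorem nonunits_add {V : ValuationSubring F} {a b : F} (ha : a ∈ V.nonunits)
    (hb : b ∈ V.nonunits) : a + b ∈ V.nonunits := by
  rw [ValuationSubring.mem_nonunits_iff] at *
  exact lt_of_le_of_lt (Valuation.map_add _ _ _) (max_lt ha hb)

theorem nonunits_mul_left {L : Type*} [Field L] {V : ValuationSubring L} {a b : L} (ha : a ∈ V.nonunits)
    (hb : b ∈ V) : a * b ∈ V.nonunits := by
  rw [ValuationSubring.mem_nonunits_iff] at *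
  rw [map_mul]
  have hb' : V.valuation b ≤ 1 := (V.valuation_le_one_iff b).mpr hb
  calc V.valuation a * V.valuation b ≤ V.valuation a * 1 := by gcongr
    _ = V.valuation a := mul_one _
    _ < 1 := ha

/-- A place is not in the disc at infinity and in a finite disc at the same time. -/
theorem not_inDisc_inv_of_center {P : Place K F} {c : K} (hc : c ∈ A)
    (hP : 0 < P.ord (x - algebraMap K F c)) : ¬ InDisc A x⁻¹ 0 P := by
  rintro ⟨c', hc', hP'⟩
  rw [sub_zero] at hc'
  set V := P.toValuationSubring
  have h1 : x - algebraMap K F c ∈ V.nonunits := mem_nonunits_of_ord_pos P hP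
  have h2 : x⁻¹ - algebraMap K F c' ∈ V.nonunits := mem_nonunits_of_ord_pos P hP'
  have hx0 : x ≠ 0 := by
    rintro rfl
    rw [inv_zero, zero_sub] at h2
    rcases eq_or_ne c' 0 with rfl | hc0
    · simp at hP'
    · have : algebraMap K F (-c') ∈ V.nonunits := by rwa [map_neg]
      exact algebraMap_not_mem_nonunits P (neg_ne_zero.mpr hc0) this
  have hxinv : x⁻¹ ∈ V := by
    have : x⁻¹ = (x⁻¹ - algebraMap K F c') + algebraMap K F c' := by ring
    rw [this]
    exact add_mem (ValuationSubring.nonunits_le h2) (P.algebraMap_mem' c')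
  have h3 : algebraMap K F (1 - c * c') ∈ V.nonunits := by
    have : algebraMap K F (1 - c * c') =
        (x - algebraMap K F c) * x⁻¹ + (x⁻¹ - algebraMap K F c') * algebraMap K F c := by
      rw [map_sub, map_one, map_mul]
      field_simp
      ring
    rw [this]
    exact nonunits_add (nonunits_mul_left h1 hxinv) (nonunits_mul_left h2 (P.algebraMap_mem' c))
  have h4 : 1 - c * c' = 0 := by
    by_contra hne
    exact algebraMap_not_mem_nonunits P hne h3
  have h5 : c * c' ∈ A.nonunits := by
    rw [mul_comm]
    exact nonunits_mul_left hc' hc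
  have h6 : c * c' = 1 := by
    rw [sub_eq_zero] at h4
    exact h4.symm
  rw [h6] at h5
  exact one_not_mem_nonunits h5

/-- The class `none` is the residue disc at infinity. -/
theorem cls_eq_none_iff [IsAlgClosed K] [Algebra.IsAlgebraic K⟮x⟯ F] {P : Place K F} :
    cls A x P = none ↔ InDisc A x⁻¹ 0 P := by
  constructor
  · intro h
    have hno : ¬ ∃ c : K, c ∈ A ∧ 0 < P.ord (x - algebraMap K F c) := by
      rintro ⟨c, hc, hP⟩
      rw [cls_eq_some hc hP] at h
      exact absurd h (by simp)
    rcases Fermat.Agent.S24.exists_center x P with hneg | ⟨c, hP⟩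
    · refine ⟨0, by rw [sub_zero]; exact zero_mem_nonunits, ?_⟩
      rw [map_zero, sub_zero, P.ord_inv]
      omega
    · have hcA : c ∉ A := fun hc => hno ⟨c, hc, hP⟩
      have hc0 : c ≠ 0 := fun h0 => hcA (h0 ▸ A.zero_mem)
      refine ⟨c⁻¹, by rw [sub_zero]; exact A.inv_mem_nonunits_iff.mpr (Or.inr hcA), ?_⟩
      set V := P.toValuationSubring
      have h1 : x - algebraMap K F c ∈ V.nonunits := mem_nonunits_of_ord_pos P hP
      have hcF : algebraMap K F c ≠ 0 := by simpa using hc0
      have hx0 : x ≠ 0 := by
        rintro rfl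
        rw [zero_sub] at h1
        have : algebraMap K F (-c) ∈ V.nonunits := by rwa [map_neg]
        exact algebraMap_not_mem_nonunits P (neg_ne_zero.mpr hc0) this
      -- `x⁻¹ ∈ V`: otherwise `x ∈ m_P`, hence `c ∈ m_P`
      have hxinv : x⁻¹ ∈ V := by
        by_contra hx
        have hxm : x ∈ V.nonunits := by
          have := V.inv_mem_nonunits_iff (x := x⁻¹)
          rw [inv_inv] at this
          exact this.mpr (Or.inr hx)
        have : algebraMap K F c ∈ V.nonunits := by
          have h2 : algebraMap K F c = x + (-1) * (x - algebraMap K F c) := by ring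
          rw [h2]
          refine nonunits_add hxm ?_
          rw [mul_comm]
          exact nonunits_mul_left h1 (neg_mem (one_mem V))
        exact algebraMap_not_mem_nonunits P hc0 this
      have hne : x⁻¹ - algebraMap K F c⁻¹ ≠ 0 := by
        intro h0
        rw [sub_eq_zero, map_inv₀, inv_inj] at h0
        rw [h0, sub_self] at hP
        simp at hP
      rw [ord_pos_iff_mem_nonunits P hne]
      have h3 : x⁻¹ - algebraMap K F c⁻¹ =
          (x - algebraMap K F c) * (-(x⁻¹ * algebraMap K F c⁻¹)) := by
        rw [map_inv₀]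
        field_simp
        ring
      rw [h3]
      exact nonunits_mul_left h1 (neg_mem (mul_mem hxinv (P.algebraMap_mem' c⁻¹)))
  · intro h
    by_contra hne
    by_cases hex : ∃ c : K, c ∈ A ∧ 0 < P.ord (x - algebraMap K F c)
    · obtain ⟨c, hc, hP⟩ := hex
      exact not_inDisc_inv_of_center hc hP h
    · exact hne (cls_eq_none hex)

end Fermat.Agent.S18.H51
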