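/-
S18 / wave 4 (helper51): ADAPTER between the abstract setup of the Program J skeleton
(`H74.Setup`, residue discs `InDisc A x b`) and the class-count endgame (a partition
`cls : Place K F → 𝔇` of the places with "clearing" and "one-units have degree `0`" on every
class).

With `cls A x` of `ClassDiscs.lean` (the residue discs of `x`, infinity included) every hypothesis
of the count is derived here from `Setup`, the landed S24 place facts and the two C1 leaves of the
skeleton, which enter as hypotheses in their disc form (`ClearAt`, `OneAt`):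

* `field_one`, `field_clear`  : the two C1 leaves, class by class;
* `field_inf_classes`         : infinitely many classes are inhabited;
* `field_inf`                 : the poles of `x` lie in the class `none`, where `x` has no zeros;
* `field_x_unit`, `field_deg_one`, `field_prin`;
* `exists_supply`             : a space `V ⊆ L(nB + jD)` (all `j ≤ m`) with `2 dim V ≥ n μ + 2`;
* `field_polar`               : `deg (x)_∞ = μ`.
-/
import Fermat.Agent.S18.H51.ClassDiscs
import Fermat.Agent.S18.H51.ClassFacts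
import Fermat.Agent.S18.H22.Subspaces
import Fermat.Agent.S18.H52.ResField

set_option autoImplicit false

open AlgebraicCurve IntermediateField

noncomputable section

namespace Fermat.Agent.S18.H51

open Fermat.Agent.S18.H74

variable {K : Type*} [Field K] (A : ValuationSubring K) {F : Type*} [Field F] [Algebra K F]
  (O : ValuationSubring F) (x : F)

/-- The conclusion of the skeleton leaf `exists_clear` on the residue disc of `b` (base `x`). -/
def ClearAt (b : K) (m : ℕ) : Prop :=
  ∀ u : F, u - 1 ∈ O.nonunits → (∀ P : Place K F, InDisc A x b P → (m : ℤ) ∣ P.ord u) →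
    ∃ g : F, g - 1 ∈ O.nonunits ∧
      ∀ P : Place K F, InDisc A x b P → (m : ℤ) * P.ord g = P.ord u

/-- The conclusion of the skeleton leaf `sum_ord_eq_zero_of_oneUnit` on the residue disc of `b`. -/
def OneAt (b : K) : Prop :=
  ∀ y : F, y - 1 ∈ O.nonunits →
    ∃ s : Finset (Place K F), (∀ P ∈ s, InDisc A x b P) ∧
      (∀ P : Place K F, InDisc A x b P → P.ord y ≠ 0 → P ∈ s) ∧ ∑ P ∈ s, P.ord y = 0

variable {A O x}

theorem mapDomain_cls_apply (D : Place K F →₀ ℤ) (d : Option (IsLocalRing.ResidueField A)) :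
    Finsupp.mapDomain (cls A x) D d =
      ∑ P ∈ D.support, (open Classical in if cls A x P = d then D P else 0) := by
  classical
  rw [Finsupp.mapDomain, Finsupp.sum_apply, Finsupp.sum]
  refine Finset.sum_congr rfl fun P _ => ?_
  rw [Finsupp.single_apply]

theorem sum_class_eq_zero {y : F} {D : Place K F →₀ ℤ} (hD : ∀ P, D P = P.ord y)
    (p : Place K F → Prop) [DecidablePred p] (s : Finset (Place K F)) (hs : ∀ P ∈ s, p P)
    (hs' : ∀ P, p P → P.ord y ≠ 0 → P ∈ s) (hsum : ∑ P ∈ s, P.ord y = 0) :
    ∑ P ∈ D.support, (if p P then D P else 0) = 0 := by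
  classical
  have h1 : ∑ P ∈ D.support, (if p P then D P else 0) =
      ∑ P ∈ D.support ∪ s, (if p P then D P else 0) := by
    refine Finset.sum_subset Finset.subset_union_left fun P _ hP => ?_
    rw [Finsupp.notMem_support_iff] at hP
    simp [hP]
  have h2 : ∑ P ∈ s, P.ord y = ∑ P ∈ D.support ∪ s, (if p P then D P else 0) := by
    have h3 : ∑ P ∈ s, P.ord y = ∑ P ∈ s, (if p P then D P else 0) :=
      Finset.sum_congr rfl fun P hP => by rw [if_pos (hs P hP), hD]
    rw [h3]
    refine Finset.sum_subset Finset.subset_union_right fun P _ hP => ?_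
    by_cases hp : p P
    · rw [if_pos hp, hD]
      by_contra h
      exact hP (hs' P hp h)
    · rw [if_neg hp]
  rw [h1, ← h2, hsum]

/-- Field `one` of the count: one-units have degree `0` on every class. -/
theorem field_one [IsAlgClosed K] [Algebra.IsAlgebraic K⟮x⟯ F]
    (h1 : ∀ b ∈ A, OneAt A O x b) (h2 : OneAt A O x⁻¹ 0) (y : F) (hy : y - 1 ∈ O.nonunits)
    (D : Place K F →₀ ℤ) (hD : ∀ P, D P = P.ord y) (d : Option (IsLocalRing.ResidueField A)) :
    Finsupp.mapDomain (cls A x) D d = 0 := by
  classical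
  rw [mapDomain_cls_apply]
  rcases d with _ | β
  · obtain ⟨s, hs, hs', hsum⟩ := h2 y hy
    exact (Finset.sum_congr rfl fun P _ => if_congr cls_eq_none_iff rfl rfl).trans
      (sum_class_eq_zero hD (fun P => InDisc A x⁻¹ 0 P) s hs hs' hsum)
  · obtain ⟨⟨b, hb⟩, rfl⟩ := IsLocalRing.residue_surjective β
    obtain ⟨s, hs, hs', hsum⟩ := h1 b hb y hy
    exact (Finset.sum_congr rfl fun P _ => if_congr (cls_eq_some_iff hb) rfl rfl).trans
      (sum_class_eq_zero hD (fun P => InDisc A x b P) s hs hs' hsum)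

/-- Field `clear` of the count: clearing on every class. -/
theorem field_clear [IsAlgClosed K] [Algebra.IsAlgebraic K⟮x⟯ F] {m : ℕ}
    (h1 : ∀ b ∈ A, ClearAt A O x b m) (h2 : ClearAt A O x⁻¹ 0 m)
    (d : Option (IsLocalRing.ResidueField A)) (u : F) (hu : u - 1 ∈ O.nonunits)
    (hord : ∀ P : Place K F, cls A x P = d → (m : ℤ) ∣ P.ord u) :
    ∃ g : F, g - 1 ∈ O.nonunits ∧
      ∀ P : Place K F, cls A x P = d → (m : ℤ) * P.ord g = P.ord u := by
  rcases d with _ | β
  · obtain ⟨g, hg, hg'⟩ := h2 u hu fun P hP => hord P (cls_eq_none_iff.mpr hP)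
    exact ⟨g, hg, fun P hP => hg' P (cls_eq_none_iff.mp hP)⟩
  · obtain ⟨⟨b, hb⟩, rfl⟩ := IsLocalRing.residue_surjective β
    obtain ⟨g, hg, hg'⟩ := h1 b hb u hu fun P hP => hord P ((cls_eq_some_iff hb).mpr hP)
    exact ⟨g, hg, fun P hP => hg' P ((cls_eq_some_iff hb).mp hP)⟩

/-- Some place lies over every point of the `x`-line. -/
theorem exists_place_over [IsAlgClosed K] [CharZero K] (hx : Transcendental K x)
    [FiniteDimensional K⟮x⟯ F] (c : K) : ∃ P : Place K F, 0 < P.ord (x - algebraMap K F c) := by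
  have htr : Transcendental K (x - algebraMap K F c) := by
    intro h
    apply hx
    have h2 : IsAlgebraic K (algebraMap K F c) := isAlgebraic_algebraMap c
    simpa using h.add h2
  obtain ⟨s₁, s₂, n, hs₁, -, hsum₁, -, hn⟩ := exists_finset_zeros_poles x htr
  have := finiteDimensional_adjoin_of_transcendental x htr
  have hpos : 0 < n := by
    rw [hn]
    exact Module.finrank_pos
  have hne : s₁.Nonempty := by
    rw [Finset.nonempty_iff_ne_empty]
    rintro rfl
    rw [Finset.sum_empty] at hsum₁
    omega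
  obtain ⟨P, hP⟩ := hne
  exact ⟨P, (hs₁ P).mp hP⟩

/-- Field `inf_classes` of the count: infinitely many residue discs are inhabited. -/
theorem field_inf_classes [IsAlgClosed K] [CharZero K] (hx : Transcendental K x)
    [FiniteDimensional K⟮x⟯ F] : (Set.range (cls A x)).Infinite := by
  have := Fermat.Agent.S18.H52.isAlgClosed_residueField A
  have hinf : Infinite (IsLocalRing.ResidueField A) := IsAlgClosed.instInfinite
  refine Set.infinite_of_injective_forall_mem (Option.some_injective _) fun β => ?_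
  obtain ⟨⟨b, hb⟩, rfl⟩ := IsLocalRing.residue_surjective β
  obtain ⟨P, hP⟩ := exists_place_over hx (F := F) b
  exact ⟨P, cls_eq_some hb hP⟩

/-- Field `inf` of the count: the poles of `x` lie in the class `none`, on which `x` has no
zeros. -/
theorem field_inf :
    ∃ dinf : Option (IsLocalRing.ResidueField A),
      (∀ P : Place K F, P.ord x < 0 → cls A x P = dinf) ∧
      ∀ P : Place K F, cls A x P = dinf → P.ord x ≤ 0 := by
  refine ⟨none, fun P hP => ?_, fun P hP => ?_⟩
  · refine cls_eq_none ?_
    rintro ⟨c, -, hc⟩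
    exact Fermat.Agent.S24.H95.not_pos_of_neg P hP c hc
  · by_contra hpos
    rw [not_le] at hpos
    have h0 : 0 < P.ord (x - algebraMap K F 0) := by rwa [map_zero, sub_zero]
    rw [cls_eq_some A.zero_mem h0] at hP
    exact absurd hP (by simp)

/-- Field `x_unit` of the count. -/
theorem field_x_unit
    (hgauss : ∀ p : Polynomial K, (∀ i, p.coeff i ∈ A) →
      (∃ i, p.coeff i ≠ 0 ∧ (p.coeff i)⁻¹ ∈ A) →
      Polynomial.aeval x p ∈ O ∧ (Polynomial.aeval x p)⁻¹ ∈ O) : x ∈ O ∧ x⁻¹ ∈ O := by
  have h := hgauss Polynomial.X (fun i => by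
      rw [Polynomial.coeff_X]
      split_ifs
      · exact A.one_mem
      · exact A.zero_mem) ⟨1, by simp, by simp [A.one_mem]⟩
  rwa [Polynomial.aeval_X] at h

/-- Field `deg_one` of the count. -/
theorem field_deg_one [IsAlgClosed K] [Algebra.IsAlgebraic K⟮x⟯ F] (P : Place K F) : P.deg = 1 :=
  Fermat.Agent.S24.deg_eq_one x P

/-- Field `prin` of the count. -/
theorem field_prin [IsAlgClosed K] [CharZero K] [FiniteDimensional K⟮x⟯ F] (f : F) (hf : f ≠ 0) :
    ∃ D : Place K F →₀ ℤ, (∀ P, D P = P.ord f) ∧ (D.sum fun _ n => n) = 0 :=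
  exists_divisor x f hf

/-- The polar divisor of `x` has degree `μ = [F : K(x)]`. -/
theorem field_polar [IsAlgClosed K] [CharZero K] (hx : Transcendental K x)
    [FiniteDimensional K⟮x⟯ F] (Dx : Place K F →₀ ℤ) (hDx : ∀ P, Dx P = P.ord x) :
    (Dx.sum fun _ e => (max 0 (-e)).toNat) = Module.finrank K⟮x⟯ F :=
  sum_polar x hx Dx hDx

/-- **Supply** for the count: a finite-dimensional space `V ⊆ L(n B + j D)` (for all `j ≤ m`,
`B = (x)_∞`, `m D = div u`) with `n μ + 2 ≤ 2 dim V`. -/
theorem exists_supply (hx : Transcendental K x) [FiniteDimensional K⟮x⟯ F] (m : ℕ) (u : F)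
    (hu0 : u ≠ 0) :
    ∃ (n : ℕ) (V : Submodule K F), FiniteDimensional K V ∧
      (∀ h ∈ V, h ≠ 0 → ∀ j : ℕ, j ≤ m → ∀ P : Place K F,
        (m : ℤ) * min 0 ((n : ℤ) * P.ord x) ≤ (m : ℤ) * P.ord h + (j : ℤ) * P.ord u) ∧
      n * Module.finrank K⟮x⟯ F + 2 ≤ Module.finrank K V + Module.finrank K V := by
  obtain ⟨c, hc⟩ := Fermat.Agent.S18.H22.exists_subspaces_core (K := K) x hx m u hu0
  obtain ⟨V, hV, hcond, hdim⟩ := hc (2 * c + 2)
  refine ⟨2 * c + 2, V, hV, hcond, ?_⟩
  have hμ : 0 < Module.finrank K⟮x⟯ F := Module.finrank_pos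
  nlinarith [hdim, hμ]

end Fermat.Agent.S18.H51
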