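/-
S18 / wave 4 (helper51): place facts of a function field `F/K` in one variable
(`K` algebraically closed of characteristic `0`, `F / K(x)` finite), from the landed S24 closure:

* `finiteDimensional_adjoin_of_transcendental` : `F / K(f)` is finite for every non-constant `f`;
* `exists_divisor` : a nonzero function has finitely many zeros and poles, and the degree of its
  divisor is `0`;
* `sum_polar` : the polar divisor of `x` has degree `[F : K(x)]`.
-/
import Fermat.Agent.S24.H79.Fib
import Fermat.Agent.S24.H95.Degree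
import Fermat.Agent.S18.H64.SetupInvFields

set_option autoImplicit false

open AlgebraicCurve IntermediateField

noncomputable section

namespace Fermat.Agent.S18.H51

variable {K : Type*} [Field K] {F : Type*} [Field F] [Algebra K F]

/-- `F` has transcendence degree `≤ 1`: it is algebraic over `K(f)` for every non-constant `f`. -/
theorem isAlgebraic_adjoin_of_transcendental (x : F) [FiniteDimensional K⟮x⟯ F]
    {f : F} (hf : Transcendental K f) : Algebra.IsAlgebraic K⟮f⟯ F := by
  have halg : Algebra.IsAlgebraic (Algebra.adjoin K ({x} : Set F)) F :=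
    IntermediateField.isAlgebraic_adjoin_iff_top.mp
      (Algebra.IsAlgebraic.of_finite K⟮x⟯ F)
  have htr : Algebra.trdeg K F ≤ 1 := by
    have h := Algebra.IsAlgebraic.trdeg_le_cardinalMk K ({x} : Set F)
    simpa using h
  have hind : AlgebraicIndependent K (fun _ : Unit => f) :=
    algebraicIndependent_unique_type_iff.mpr hf
  have hbasis : IsTranscendenceBasis K (fun _ : Unit => f) :=
    hind.isTranscendenceBasis_of_lift_trdeg_le_of_finite (by simpa using htr)
  have h := hbasis.isAlgebraic_field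
  rwa [Set.range_const] at h

/-- `F / K(f)` is finite for every non-constant `f`. -/
theorem finiteDimensional_adjoin_of_transcendental (x : F) [FiniteDimensional K⟮x⟯ F]
    {f : F} (hf : Transcendental K f) : FiniteDimensional K⟮f⟯ F := by
  classical
  have := isAlgebraic_adjoin_of_transcendental x hf
  set b := Module.finBasis K⟮x⟯ F with hb
  set S : Set F := insert x (Set.range b) with hS
  have : Finite S := Set.Finite.to_subtype ((Set.finite_range b).insert x)
  have hfd : FiniteDimensional K⟮f⟯ (IntermediateField.adjoin K⟮f⟯ S) :=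
    IntermediateField.finiteDimensional_adjoin fun y _ =>
      (Algebra.IsAlgebraic.isAlgebraic (R := K⟮f⟯) y).isIntegral
  have htop : IntermediateField.adjoin K⟮f⟯ S = ⊤ := by
    rw [eq_top_iff]
    intro y _
    set E := IntermediateField.adjoin K⟮f⟯ S with hE
    have hxE : x ∈ E := IntermediateField.subset_adjoin _ _ (Set.mem_insert _ _)
    have hle : K⟮x⟯ ≤ E.restrictScalars K := by
      rw [adjoin_simple_le_iff]
      exact hxE
    have hy : y = ∑ i, (b.repr y i : F) * b i := by
      conv_lhs => rw [← b.sum_repr y]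
      simp [Algebra.smul_def]
    rw [hy]
    refine E.sum_mem fun i _ => E.mul_mem (hle (b.repr y i).2) ?_
    exact IntermediateField.subset_adjoin _ _ (Set.mem_insert_of_mem _ (Set.mem_range_self i))
  rw [htop] at hfd
  exact Module.Finite.equiv (IntermediateField.topEquiv (F := K⟮f⟯) (E := F)).toLinearEquiv

/-- Constants of an algebraically closed field: an algebraic element is a constant. -/
theorem exists_eq_algebraMap_of_isAlgebraic [IsAlgClosed K] {f : F} (hf : IsAlgebraic K f) :
    ∃ c : K, algebraMap K F c = f := by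
  have hirr := minpoly.irreducible hf.isIntegral
  exact minpoly.mem_range_of_degree_eq_one K f (IsAlgClosed.degree_eq_one_of_irreducible K hirr)

/-- Zeros and poles of a non-constant function. -/
theorem exists_finset_zeros_poles [IsAlgClosed K] [CharZero K] (x : F) [FiniteDimensional K⟮x⟯ F]
    {f : F} (hf : Transcendental K f) :
    ∃ (s₁ s₂ : Finset (Place K F)) (n : ℕ), (∀ v, v ∈ s₁ ↔ 0 < v.ord f) ∧
      (∀ v, v ∈ s₂ ↔ v.ord f < 0) ∧ ∑ v ∈ s₁, v.ord f = n ∧ ∑ v ∈ s₂, v.ord f = -(n : ℤ) ∧
      n = Module.finrank K⟮f⟯ F := by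
  have := finiteDimensional_adjoin_of_transcendental x hf
  have hfinv : Transcendental K f⁻¹ := fun h => hf (by simpa using h.inv)
  obtain ⟨hfd, hrank⟩ : FiniteDimensional K⟮f⁻¹⟯ F ∧
      Module.finrank K⟮f⁻¹⟯ F = Module.finrank K⟮f⟯ F :=
    Fermat.Agent.S18.H64.transport_adjoin_inv K f
      (fun E => FiniteDimensional E F ∧ Module.finrank E F = Module.finrank K⟮f⟯ F)
      ⟨inferInstance, rfl⟩
  obtain ⟨s₁, hs₁, hsum₁⟩ := Fermat.Agent.S24.H79.exists_finset_ord_pos_adjoin f hf
  obtain ⟨s₂, hs₂, hsum₂⟩ := Fermat.Agent.S24.H79.exists_finset_ord_pos_adjoin f⁻¹ hfinv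
  refine ⟨s₁, s₂, Module.finrank K⟮f⟯ F, hs₁, fun v => ?_, hsum₁, ?_, rfl⟩
  · rw [hs₂, v.ord_inv]
    omega
  · rw [hrank] at hsum₂
    rw [← hsum₂, ← Finset.sum_neg_distrib]
    exact Finset.sum_congr rfl fun v _ => by rw [v.ord_inv]; ring

/-- **Principal divisors**: a nonzero function has a divisor, of degree `0`. -/
theorem exists_divisor [IsAlgClosed K] [CharZero K] (x : F) [FiniteDimensional K⟮x⟯ F]
    (f : F) (hf : f ≠ 0) :
    ∃ D : Place K F →₀ ℤ, (∀ P, D P = P.ord f) ∧ (D.sum fun _ n => n) = 0 := by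
  classical
  by_cases halg : IsAlgebraic K f
  · obtain ⟨c, rfl⟩ := exists_eq_algebraMap_of_isAlgebraic halg
    refine ⟨0, fun P => ?_, by simp⟩
    rw [Fermat.Agent.S24.H95.ord_algebraMap]
    rfl
  · obtain ⟨s₁, s₂, n, hs₁, hs₂, hsum₁, hsum₂, -⟩ := exists_finset_zeros_poles x halg
    have hsupp : ∀ P : Place K F, P.ord f ≠ 0 → P ∈ s₁ ∪ s₂ := by
      intro P hP
      rw [Finset.mem_union, hs₁, hs₂]
      omega
    refine ⟨Finsupp.onFinset (s₁ ∪ s₂) (fun P => P.ord f) hsupp, fun P => rfl, ?_⟩
    rw [Finsupp.onFinset_sum hsupp (fun _ => rfl)]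
    have hdisj : Disjoint s₁ s₂ := by
      rw [Finset.disjoint_left]
      intro P h1 h2
      rw [hs₁] at h1
      rw [hs₂] at h2
      omega
    rw [Finset.sum_union hdisj, hsum₁, hsum₂]
    ring

/-- The polar divisor of `x` has degree `[F : K(x)]`. -/
theorem sum_polar [IsAlgClosed K] [CharZero K] (x : F) (hx : Transcendental K x)
    [FiniteDimensional K⟮x⟯ F] (Dx : Place K F →₀ ℤ) (hDx : ∀ P, Dx P = P.ord x) :
    (Dx.sum fun _ e => (max 0 (-e)).toNat) = Module.finrank K⟮x⟯ F := by
  classical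
  obtain ⟨s₁, s₂, n, hs₁, hs₂, hsum₁, hsum₂, hn⟩ := exists_finset_zeros_poles x hx
  rw [← hn]
  have hsub : s₂ ⊆ Dx.support := by
    intro P hP
    rw [hs₂] at hP
    rw [Finsupp.mem_support_iff, hDx]
    omega
  have h1 : ((Dx.sum fun _ e => (max 0 (-e)).toNat : ℕ) : ℤ) = ∑ P ∈ Dx.support, max 0 (-(Dx P)) := by
    rw [Finsupp.sum, Nat.cast_sum]
    exact Finset.sum_congr rfl fun P _ => Int.toNat_of_nonneg (le_max_left _ _)
  have h2 : ∑ P ∈ Dx.support, max 0 (-(Dx P)) = ∑ P ∈ s₂, max 0 (-(Dx P)) := by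
    symm
    refine Finset.sum_subset hsub fun P _ hP => ?_
    rw [hs₂] at hP
    rw [hDx]
    exact max_eq_left (by omega)
  have h3 : ∑ P ∈ s₂, max 0 (-(Dx P)) = ∑ P ∈ s₂, -(P.ord x) := by
    refine Finset.sum_congr rfl fun P hP => ?_
    rw [hs₂] at hP
    rw [hDx]
    exact max_eq_right (by omega)
  have h4 : ((Dx.sum fun _ e => (max 0 (-e)).toNat : ℕ) : ℤ) = n := by
    rw [h1, h2, h3, Finset.sum_neg_distrib, hsum₂]
    ring
  exact_mod_cast h4

end Fermat.Agent.S18.H51
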